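/-
GATE-L / S58, node EC-UNIP (U1): for a Weierstrass curve `W` with coefficients in a valuation
subring `A` of an algebraically closed field `K` of characteristic `0`, with `Δ ∈ 𝔪`, `Δ ≠ 0`
and `c₄` a unit (multiplicative reduction), there is an `A`-integral TRANSLATION
`(x, y) ↦ (x + r, y + t)` bringing `W` to the node model of `S13/NodeInertia`
(`a₃ = a₆ = 0`, `a₄ ∈ 𝔪`, `a₄ ≠ 0`, `b₂` a unit).  All residue characteristics.
-/
import Fermat.Agent.S13.NodeInertia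
import Fermat.Agent.S05.KerTors

set_option autoImplicit false

namespace Fermat.Agent.GE.Unip

open WeierstrassCurve
open Fermat.Agent.S05 Fermat.Agent.S05.SameRed Fermat.Agent.S13.NodeInertia

variable {K : Type*} [Field K]

/-- The translation `(x, y) ↦ (x + r, y + t)` as a variable change. -/
def transl (r t : K) : VariableChange K := ⟨1, r, 0, t⟩

section Coeffs

variable (W : WeierstrassCurve K) (r t : K)

@[simp] theorem transl_a₁ : (transl r t • W).a₁ = W.a₁ := by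
  simp [transl, variableChange_a₁]

@[simp] theorem transl_a₂ : (transl r t • W).a₂ = W.a₂ + 3 * r := by
  simp [transl, variableChange_a₂]

@[simp] theorem transl_a₃ : (transl r t • W).a₃ = W.a₃ + r * W.a₁ + 2 * t := by
  simp [transl, variableChange_a₃]

@[simp] theorem transl_a₄ :
    (transl r t • W).a₄ = W.a₄ + 2 * r * W.a₂ - t * W.a₁ + 3 * r ^ 2 := by
  simp [transl, variableChange_a₄]

@[simp] theorem transl_a₆ :
    (transl r t • W).a₆ =
      W.a₆ + r * W.a₄ + r ^ 2 * W.a₂ + r ^ 3 - t * W.a₃ - t ^ 2 - r * t * W.a₁ := by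
  simp [transl, variableChange_a₆]

theorem transl_Δ : (transl r t • W).Δ = W.Δ := by
  simp [transl, variableChange_Δ]

theorem transl_c₄ : (transl r t • W).c₄ = W.c₄ := by
  simp [transl, variableChange_c₄]

theorem transl_b₂ : (transl r t • W).b₂ = W.b₂ + 12 * r := by
  simp [transl, variableChange_b₂]

theorem transl_zero : transl (0 : K) 0 • W = W := by
  ext <;> simp

theorem transl_transl (ρ τ : K) :
    transl ρ τ • transl r t • W = transl (r + ρ) (t + τ) • W := by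
  ext <;> simp <;> ring

theorem transl_integralCoeffs {A : ValuationSubring K} (hW : IntegralCoeffs A W) {r t : K}
    (hr : r ∈ A) (ht : t ∈ A) : IntegralCoeffs A (transl r t • W) := by
  have h2 : (2 : K) ∈ A := ofNat_mem A 2
  have h3 : (3 : K) ∈ A := ofNat_mem A 3
  refine ⟨?_, ?_, ?_, ?_, ?_⟩
  · rw [transl_a₁]; exact hW.a₁
  · rw [transl_a₂]; exact add_mem hW.a₂ (mul_mem h3 hr)
  · rw [transl_a₃]; exact add_mem (add_mem hW.a₃ (mul_mem hr hW.a₁)) (mul_mem h2 ht)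
  · rw [transl_a₄]
    exact add_mem (sub_mem (add_mem hW.a₄ (mul_mem (mul_mem h2 hr) hW.a₂)) (mul_mem ht hW.a₁))
      (mul_mem h3 (pow_mem hr 2))
  · rw [transl_a₆]
    exact sub_mem (sub_mem (sub_mem (add_mem (add_mem (add_mem hW.a₆ (mul_mem hr hW.a₄))
      (mul_mem (pow_mem hr 2) hW.a₂)) (pow_mem hr 3)) (mul_mem ht hW.a₃)) (pow_mem ht 2))
      (mul_mem (mul_mem hr ht) hW.a₁)

end Coeffs

/-! ### Shape `a₃ = a₆ = 0` -/

section Shape

variable {W : WeierstrassCurve K}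

theorem Δ_of_shape (h3 : W.a₃ = 0) (h6 : W.a₆ = 0) :
    W.Δ = W.a₄ ^ 2 * (W.b₂ ^ 2 - 64 * W.a₄) := by
  simp only [WeierstrassCurve.Δ, WeierstrassCurve.b₂, WeierstrassCurve.b₄, WeierstrassCurve.b₆,
    WeierstrassCurve.b₈, h3, h6]
  ring

theorem c₄_of_shape (h3 : W.a₃ = 0) :
    W.c₄ = W.b₂ ^ 2 - 48 * W.a₄ := by
  simp only [WeierstrassCurve.c₄, WeierstrassCurve.b₂, WeierstrassCurve.b₄, h3]
  ring

/-- A curve of shape `a₃ = a₆ = 0` with integral coefficients, `a₄ ∈ 𝔪`, `Δ ≠ 0` and `c₄` a unit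
is a node model. -/
theorem nodeHyp_of_a₄_mem {A : ValuationSubring K} (hW : IntegralCoeffs A W) (h3 : W.a₃ = 0)
    (h6 : W.a₆ = 0) (h4 : W.a₄ ∈ A.nonunits) (hΔ0 : W.Δ ≠ 0) (hc₄ : W.c₄ ∉ A.nonunits) :
    NodeHyp A W where
  a₃ := h3
  a₆ := h6
  a₁ := hW.a₁
  a₂ := hW.a₂
  b₂ := by
    intro hb
    apply hc₄
    rw [c₄_of_shape h3, sq]
    exact nu_sub A (nu_mul_left A hb (nu_mem A hb)) (nu_mul_right A (ofNat_mem A 48) h4)
  a₄ := h4
  a₄_ne := by
    intro h0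
    apply hΔ0
    rw [Δ_of_shape h3 h6, h0]
    ring

end Shape

/-! ### Roots of cubics and quadratics -/

section Roots

theorem exists_root_cubic [IsAlgClosed K] (a b c d : K) (ha : a ≠ 0) :
    ∃ x : K, a * x ^ 3 + b * x ^ 2 + c * x + d = 0 := by
  have hdeg : (Polynomial.C a * Polynomial.X ^ 3 + Polynomial.C b * Polynomial.X ^ 2 +
      Polynomial.C c * Polynomial.X + Polynomial.C d).degree ≠ 0 := by
    rw [Polynomial.degree_cubic ha]
    decide
  obtain ⟨x, hx⟩ := IsAlgClosed.exists_root _ hdeg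
  refine ⟨x, ?_⟩
  simpa [Polynomial.IsRoot.def] using hx

theorem exists_root_quadratic [IsAlgClosed K] (a b c : K) (ha : a ≠ 0) :
    ∃ x : K, a * x ^ 2 + b * x + c = 0 := by
  have hdeg : (Polynomial.C a * Polynomial.X ^ 2 + Polynomial.C b * Polynomial.X +
      Polynomial.C c).degree ≠ 0 := by
    rw [Polynomial.degree_quadratic ha]
    decide
  obtain ⟨x, hx⟩ := IsAlgClosed.exists_root _ hdeg
  refine ⟨x, ?_⟩
  simpa [Polynomial.IsRoot.def] using hx

/-- A root of a cubic with integral coefficients and unit leading coefficient is integral. -/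
theorem root_mem_of_cubic {A : ValuationSubring K} {a b c d x : K} (ha : a ∉ A.nonunits)
    (hb : b ∈ A) (hc : c ∈ A) (hd : d ∈ A) (h : a * x ^ 3 + b * x ^ 2 + c * x + d = 0) :
    x ∈ A := by
  by_contra hx
  have hx0 : x ≠ 0 := by
    rintro rfl
    exact hx A.zero_mem
  have hz : x⁻¹ ∈ A.nonunits := KerTors.inv_mem_nu_of_notMem A hx
  have hzA : x⁻¹ ∈ A := nu_mem A hz
  apply ha
  have e : a = -((b + c * x⁻¹ + d * x⁻¹ ^ 2) * x⁻¹) := by
    field_simp
    linear_combination h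
  rw [e]
  exact nu_neg A (nu_mul_right A
    (add_mem (add_mem hb (mul_mem hc hzA)) (mul_mem hd (pow_mem hzA 2))) hz)

theorem root_mem_of_quadratic {A : ValuationSubring K} {a b c x : K} (ha : a ∉ A.nonunits)
    (hb : b ∈ A) (hc : c ∈ A) (h : a * x ^ 2 + b * x + c = 0) : x ∈ A := by
  refine root_mem_of_cubic (d := 0) ha hb hc A.zero_mem ?_
  linear_combination x * h

end Roots

/-! ### Moving to the shape `a₃ = a₆ = 0` -/

section ToShape

variable [CharZero K] (W : WeierstrassCurve K)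

/-- The `y`-translation attached to a root `r` of the `2`-division polynomial. -/
noncomputable def tOf (r : K) : K := -(W.a₁ * r + W.a₃) / 2

theorem transl_tOf_a₃ (r : K) : (transl r (tOf W r) • W).a₃ = 0 := by
  rw [transl_a₃, tOf]
  field_simp
  ring

theorem four_mul_transl_tOf_a₆ (r : K) :
    4 * (transl r (tOf W r) • W).a₆ = 4 * r ^ 3 + W.b₂ * r ^ 2 + 2 * W.b₄ * r + W.b₆ := by
  rw [transl_a₆, tOf, WeierstrassCurve.b₂, WeierstrassCurve.b₄, WeierstrassCurve.b₆]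
  field_simp
  ring

theorem four_mul_transl_tOf_a₄ (r : K) :
    4 * (transl r (tOf W r) • W).a₄ = 12 * r ^ 2 + 2 * W.b₂ * r + 2 * W.b₄ := by
  rw [transl_a₄, tOf, WeierstrassCurve.b₂, WeierstrassCurve.b₄]
  field_simp
  ring

theorem transl_tOf_a₆ {r : K} (hr : 4 * r ^ 3 + W.b₂ * r ^ 2 + 2 * W.b₄ * r + W.b₆ = 0) :
    (transl r (tOf W r) • W).a₆ = 0 := by
  have h := four_mul_transl_tOf_a₆ W r
  rw [hr] at h
  exact (mul_eq_zero.1 h).resolve_left (by norm_num)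

/-- `(r, tOf r)` lies on `W` when `r` is a root of the `2`-division polynomial, so `tOf r` is
integral when `r` is. -/
theorem tOf_mem {A : ValuationSubring K} (hW : IntegralCoeffs A W) {r : K} (hr : r ∈ A)
    (hg : 4 * r ^ 3 + W.b₂ * r ^ 2 + 2 * W.b₄ * r + W.b₆ = 0) : tOf W r ∈ A := by
  have h6 := transl_tOf_a₆ W hg
  rw [transl_a₆] at h6
  refine KR.y_mem_of_x_mem (W := W.toAffine) hW.a₁ hW.a₂ hW.a₃ hW.a₄ hW.a₆ (x := r) ?_ hr
  rw [Affine.equation_iff]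
  linear_combination -h6

end ToShape

/-! ### Integrality of the `b`-invariants -/

section BMem

variable {A : ValuationSubring K} {W : WeierstrassCurve K}

theorem b₂_mem_of_integral (hW : IntegralCoeffs A W) : W.b₂ ∈ A := by
  rw [WeierstrassCurve.b₂]
  exact add_mem (pow_mem hW.a₁ 2) (mul_mem (ofNat_mem A 4) hW.a₂)

theorem b₄_mem_of_integral (hW : IntegralCoeffs A W) : W.b₄ ∈ A := by
  rw [WeierstrassCurve.b₄]
  exact add_mem (mul_mem (ofNat_mem A 2) hW.a₄) (mul_mem hW.a₁ hW.a₃)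

theorem b₆_mem_of_integral (hW : IntegralCoeffs A W) : W.b₆ ∈ A := by
  rw [WeierstrassCurve.b₆]
  exact add_mem (pow_mem hW.a₃ 2) (mul_mem (ofNat_mem A 4) hW.a₆)

end BMem

/-! ### Inside the shape: reaching `a₄ ∈ 𝔪` -/

section Step

variable [IsAlgClosed K] [CharZero K] {A : ValuationSubring K} {W : WeierstrassCurve K}

theorem exists_nodeHyp_of_shape (hW : IntegralCoeffs A W) (h3 : W.a₃ = 0) (h6 : W.a₆ = 0)
    (hΔ : W.Δ ∈ A.nonunits) (hΔ0 : W.Δ ≠ 0) (hc₄ : W.c₄ ∉ A.nonunits) :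
    ∃ ρ τ : K, ρ ∈ A ∧ τ ∈ A ∧ NodeHyp A (transl ρ τ • W) := by
  by_cases h4 : W.a₄ ∈ A.nonunits
  · refine ⟨0, 0, A.zero_mem, A.zero_mem, ?_⟩
    rw [transl_zero]
    exact nodeHyp_of_a₄_mem hW h3 h6 h4 hΔ0 hc₄
  · have hb₂ := b₂_mem_of_integral hW
    have hinv : W.a₄⁻¹ ∈ A := KerTors.inv_mem_of_notMem_nu A hW.a₄ h4
    have h40 : W.a₄ ≠ 0 := by
      intro h0
      exact h4 (h0 ▸ nu_zero A)
    -- the discriminant of the residual quadratic lies in `𝔪`
    have hD : W.b₂ ^ 2 - 64 * W.a₄ ∈ A.nonunits := by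
      have e : W.b₂ ^ 2 - 64 * W.a₄ = W.a₄⁻¹ ^ 2 * W.Δ := by
        rw [Δ_of_shape h3 h6]
        field_simp
      rw [e]
      exact nu_mul_right A (pow_mem hinv 2) hΔ
    have h2 : (2 : K) ∉ A.nonunits := by
      intro h2
      apply hc₄
      have e : W.c₄ = (W.b₂ ^ 2 - 64 * W.a₄) + 2 * (8 * W.a₄) := by
        rw [c₄_of_shape h3]
        ring
      rw [e]
      exact nu_add A hD (nu_mul_left A h2 (mul_mem (ofNat_mem A 8) hW.a₄))
    have h4u : (4 : K) ∉ A.nonunits := by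
      intro h
      apply h2
      apply KerTors.mem_nu_of_sq_mem_nu A
      have e : (2 : K) ^ 2 = 4 := by norm_num
      rw [e]
      exact h
    have h4inv : (4 : K)⁻¹ ∈ A := KerTors.inv_mem_of_notMem_nu A (ofNat_mem A 4) h4u
    obtain ⟨ρ, hρ⟩ := exists_root_quadratic (4 : K) W.b₂ (4 * W.a₄) (by norm_num : (4 : K) ≠ 0)
    have hρA : ρ ∈ A :=
      root_mem_of_quadratic h4u hb₂ (mul_mem (ofNat_mem A 4) hW.a₄) hρ
    have hg : 4 * ρ ^ 3 + W.b₂ * ρ ^ 2 + 2 * W.b₄ * ρ + W.b₆ = 0 := by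
      rw [WeierstrassCurve.b₄, WeierstrassCurve.b₆, h3, h6]
      linear_combination ρ * hρ
    have hτA : tOf W ρ ∈ A := tOf_mem W hW hρA hg
    refine ⟨ρ, tOf W ρ, hρA, hτA, ?_⟩
    refine nodeHyp_of_a₄_mem (transl_integralCoeffs W hW hρA hτA) (transl_tOf_a₃ W ρ)
      (transl_tOf_a₆ W hg) ?_ (by rw [transl_Δ]; exact hΔ0) (by rw [transl_c₄]; exact hc₄)
    -- `4 a₄' = ρ (8ρ + b₂)` and `(8ρ + b₂)² = b₂² - 64 a₄`
    have h8 : 8 * ρ + W.b₂ ∈ A.nonunits := by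
      apply KerTors.mem_nu_of_sq_mem_nu A
      have e : (8 * ρ + W.b₂) ^ 2 = W.b₂ ^ 2 - 64 * W.a₄ := by
        linear_combination 16 * hρ
      rw [e]
      exact hD
    have e4 : (transl ρ (tOf W ρ) • W).a₄ = 4⁻¹ * (ρ * (8 * ρ + W.b₂)) := by
      have h := four_mul_transl_tOf_a₄ W ρ
      rw [WeierstrassCurve.b₄, h3] at h
      have h' : 4 * (transl ρ (tOf W ρ) • W).a₄ = ρ * (8 * ρ + W.b₂) := by
        linear_combination h + hρ
      rw [← h', ← mul_assoc, inv_mul_cancel₀ (by norm_num : (4 : K) ≠ 0), one_mul]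
    rw [e4]
    exact nu_mul_right A h4inv (nu_mul_right A hρA h8)

end Step

/-! ### An integral root of the `2`-division polynomial -/

section IntegralRoot

theorem key_identity (b₂ b₄ b₆ r r₁ : K) (hr : r ≠ 0) (hr₁ : r₁ ≠ 0)
    (hg : 4 * r₁ ^ 3 + b₂ * r₁ ^ 2 + 2 * b₄ * r₁ + b₆ = 0)
    (hk : 4 * r ^ 2 + (b₂ + 4 * r₁) * r + (2 * b₄ + b₂ * r₁ + 4 * r₁ ^ 2) = 0) :
    b₂ = -((2 * b₄ + b₆ * (r⁻¹ + r₁⁻¹)) * r⁻¹ + (2 * b₄ + b₆ * r₁⁻¹) * r₁⁻¹) := by
  field_simp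
  linear_combination (r ^ 2 + r * r₁ + r₁ ^ 2) * hg - r₁ ^ 3 * hk

variable [IsAlgClosed K] [CharZero K] {A : ValuationSubring K} {W : WeierstrassCurve K}

theorem exists_integral_root (hW : IntegralCoeffs A W) (hc₄ : W.c₄ ∉ A.nonunits) :
    ∃ r : K, r ∈ A ∧ 4 * r ^ 3 + W.b₂ * r ^ 2 + 2 * W.b₄ * r + W.b₆ = 0 := by
  have hb₂ := b₂_mem_of_integral hW
  have hb₄ := b₄_mem_of_integral hW
  have hb₆ := b₆_mem_of_integral hW
  have h2b₄ : 2 * W.b₄ ∈ A := mul_mem (ofNat_mem A 2) hb₄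
  obtain ⟨r₁, hg₁⟩ := exists_root_cubic (4 : K) W.b₂ (2 * W.b₄) W.b₆ (by norm_num : (4 : K) ≠ 0)
  by_cases hr₁ : r₁ ∈ A
  · exact ⟨r₁, hr₁, hg₁⟩
  by_cases h4 : (4 : K) ∈ A.nonunits
  · -- residue characteristic `2`: `b₂` is a unit and at most one root is not integral
    have hb₂u : W.b₂ ∉ A.nonunits := by
      intro hb
      apply hc₄
      have e : W.c₄ = W.b₂ * W.b₂ - 4 * (6 * W.b₄) := by
        rw [WeierstrassCurve.c₄]
        ring
      rw [e]
      exact nu_sub A (nu_mul_left A hb hb₂) (nu_mul_left A h4 (mul_mem (ofNat_mem A 6) hb₄))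
    obtain ⟨r, hk⟩ := exists_root_quadratic (4 : K) (W.b₂ + 4 * r₁)
      (2 * W.b₄ + W.b₂ * r₁ + 4 * r₁ ^ 2) (by norm_num : (4 : K) ≠ 0)
    refine ⟨r, ?_, by linear_combination (r - r₁) * hk + hg₁⟩
    by_contra hr
    have hr0 : r ≠ 0 := by
      rintro rfl
      exact hr A.zero_mem
    have hr₁0 : r₁ ≠ 0 := by
      rintro rfl
      exact hr₁ A.zero_mem
    have hz : r⁻¹ ∈ A.nonunits := KerTors.inv_mem_nu_of_notMem A hr
    have hz₁ : r₁⁻¹ ∈ A.nonunits := KerTors.inv_mem_nu_of_notMem A hr₁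
    have hzA := nu_mem A hz
    have hz₁A := nu_mem A hz₁
    apply hb₂u
    rw [key_identity W.b₂ W.b₄ W.b₆ r r₁ hr0 hr₁0 hg₁ hk]
    refine nu_neg A (nu_add A (nu_mul_right A ?_ hz) (nu_mul_right A ?_ hz₁))
    · exact add_mem h2b₄ (mul_mem hb₆ (add_mem hzA hz₁A))
    · exact add_mem h2b₄ (mul_mem hb₆ hz₁A)
  · exact absurd (root_mem_of_cubic h4 hb₂ h2b₄ hb₆ hg₁) hr₁

end IntegralRoot

/-! ### The main statement -/

section Main

variable [IsAlgClosed K] [CharZero K] {A : ValuationSubring K} {W : WeierstrassCurve K}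

/-- **Multiplicative reduction ⟹ an integral translate is a node model.** -/
theorem exists_nodeHyp (hW : IntegralCoeffs A W) (hΔ : W.Δ ∈ A.nonunits) (hΔ0 : W.Δ ≠ 0)
    (hc₄ : W.c₄ ∉ A.nonunits) :
    ∃ r t : K, r ∈ A ∧ t ∈ A ∧ NodeHyp A (transl r t • W) := by
  obtain ⟨r, hr, hg⟩ := exists_integral_root hW hc₄
  have ht : tOf W r ∈ A := tOf_mem W hW hr hg
  obtain ⟨ρ, τ, hρ, hτ, H⟩ := exists_nodeHyp_of_shape
    (transl_integralCoeffs W hW hr ht) (transl_tOf_a₃ W r) (transl_tOf_a₆ W hg)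
    (by rw [transl_Δ]; exact hΔ) (by rw [transl_Δ]; exact hΔ0) (by rw [transl_c₄]; exact hc₄)
  refine ⟨r + ρ, tOf W r + τ, add_mem hr hρ, add_mem ht hτ, ?_⟩
  rw [← transl_transl]
  exact H

end Main

end Fermat.Agent.GE.Unip
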