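/-
GATE-L / S58, node EC-UNIP (U2/U3): `W'` a Weierstrass curve over `R → ℚ → K`, `A` a valuation
subring of `K` over a prime, `(r, t)` an `A`-integral translation such that `transl r t • W` is a
node model over `K` (NOT defined over `ℚ` in general).  For `σ` in the inertia group of `A` and
ANY point `P` of `W(K)`, the point `σ • P - P`, transported to the node model, lies in `E₀`
(the component group of the node model is fixed by inertia, because valuations are).
-/
import Fermat.Agent.GE.Unip.NodeChange
import Fermat.Agent.S05.VarChange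

set_option autoImplicit false
set_option linter.unusedSectionVars false

namespace Fermat.Agent.GE.Unip

open WeierstrassCurve WeierstrassCurve.Affine WeierstrassCurve.Affine.Point
open Fermat.Agent.S05 Fermat.Agent.S05.SameRed Fermat.Agent.S13.NodeInertia
open Fermat.Agent.S13.NodeGen Fermat.Agent.S13.Branch

section Coord

variable {K : Type*} [Field K] (r t : K)

@[simp] theorem vcX_transl (x : K) : vcX (transl r t) x = x + r := by
  simp [vcX, transl]

@[simp] theorem vcY_transl (x y : K) : vcY (transl r t) x y = y + t := by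
  simp [vcY, transl]

end Coord

/-! ### Pure algebra / valuation theory on the node model -/

section Val

variable {K : Type*} [Field K] {Γ₀ : Type*} [LinearOrderedCommGroupWithZero Γ₀]
  {v : Valuation K Γ₀} {W : WeierstrassCurve K} {α : K}

/-- near the node, the slope `y / x` is integral -/
theorem val_slope_le_one (M : GModel v W α) {x y : K} (h : W.toAffine.Equation x y)
    (hx1 : v x < 1) (hbx : v W.a₄ < v x) : v (y / x) ≤ 1 := by
  rcases sign_dichotomy M h hx1 hbx with hs | hs
  · have e : y / x = (y / x - α) + α := by ring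
    rw [e]
    exact Valuation.map_add_le v hs.le M.vα
  · have e : y / x = (y / x + W.a₁ + α) - W.a₁ - α := by ring
    rw [e]
    exact Valuation.map_sub_le v (Valuation.map_sub_le v hs.le M.va₁) M.vα

/-- the `2`-torsion relation satisfied by a point `(ρ, τ)` of a curve of shape `a₃ = a₆ = 0` with
`ρ a₁ + 2 τ = 0` -/
theorem two_torsion_relation (h3 : W.a₃ = 0) (h6 : W.a₆ = 0) {ρ τ : K}
    (h2 : ρ * W.a₁ + 2 * τ = 0) (heq : W.toAffine.Equation ρ τ) :
    ρ * (4 * ρ ^ 2 + W.b₂ * ρ + 4 * W.a₄) = 0 := by
  rw [Affine.equation_iff] at heq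
  rw [h3, h6] at heq
  rw [WeierstrassCurve.b₂]
  linear_combination (2 * τ + W.a₁ * ρ) * h2 - 4 * heq

variable [DecidableEq K]

/-- **Core step (abstract form).**  `σ` a ring endomorphism of `K` preserving the valuation and
acting trivially on the residue field, `(ρ, τ)` small: the map `(x, y) ↦ (σ x + ρ, σ y + τ)`
moves every affine point of the node model within its component. -/
theorem some_sub_some_inE0_core (M : GModel v W α) (σ : K →+* K) (hvσ : ∀ z : K, v (σ z) = v z)
    (hσs : ∀ z : K, v z ≤ 1 → v (σ z - z) < 1) {ρ τ : K} (hvρ : v ρ ≤ v W.a₄)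
    (hvτ : v τ ≤ v W.a₄) {x y : K} (h : W.toAffine.Nonsingular x y)
    (h' : W.toAffine.Nonsingular (σ x + ρ) (σ y + τ)) :
    InE0 v W (Point.some _ _ h' - Point.some x y h) := by
  have hρ1 : v ρ < 1 := lt_of_le_of_lt hvρ M.vb
  by_cases hx1 : 1 ≤ v x
  · -- both points lie in `E₀`
    have hx1' : 1 ≤ v (σ x + ρ) := by
      rw [Valuation.map_add_eq_of_lt_left, hvσ]
      · exact hx1
      · rw [hvσ]; exact lt_of_lt_of_le hρ1 hx1
    exact inE0_sub M ((inE0_some h').2 hx1') ((inE0_some h).2 hx1)
  push Not at hx1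
  by_cases hxb : v x ≤ v W.a₄
  · -- both points are deep
    have hxb' : v (σ x + ρ) ≤ v W.a₄ :=
      Valuation.map_add_le v (by rw [hvσ]; exact hxb) hvρ
    rw [← comp_eq_comp_iff M, comp_of_deep M h' hxb', comp_of_deep M h hxb]
  push Not at hxb
  -- near the node: same valuation of `x`, congruent slopes
  have hvx' : v (σ x + ρ) = v x := by
    rw [Valuation.map_add_eq_of_lt_left, hvσ]
    rw [hvσ]
    exact lt_of_le_of_lt hvρ hxb
  have hx0 : x ≠ 0 := by
    rintro rfl
    rw [_root_.map_zero] at hxb
    exact not_lt_zero hxb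
  have hx'0 : σ x + ρ ≠ 0 := by
    intro h0
    rw [h0, _root_.map_zero] at hvx'
    exact hx0 ((Valuation.zero_iff v).1 hvx'.symm)
  have hs : v (y / x) ≤ 1 := val_slope_le_one M h.1 hx1 hxb
  have hσx0 : σ x ≠ 0 := fun h0 => hx0 ((map_eq_zero σ).1 h0)
  have hslope : (σ y + τ) / (σ x + ρ) - σ (y / x) = (τ - σ (y / x) * ρ) / (σ x + ρ) := by
    rw [map_div₀]
    field_simp
    ring
  have hnum : v (τ - σ (y / x) * ρ) ≤ v W.a₄ := by
    refine Valuation.map_sub_le v hvτ ?_
    rw [map_mul, hvσ]
    exact (mul_le_of_le_one_left' hs).trans hvρ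
  have hdiff : v ((σ y + τ) / (σ x + ρ) - σ (y / x)) < 1 := by
    rw [hslope, map_div₀, hvx']
    have hxpos : 0 < v x := by rw [Valuation.pos_iff]; exact hx0
    exact (div_lt_one₀ hxpos).2 (lt_of_le_of_lt hnum hxb)
  have hfin : v ((σ y + τ) / (σ x + ρ) - y / x) < 1 := by
    have e : (σ y + τ) / (σ x + ρ) - y / x =
        ((σ y + τ) / (σ x + ρ) - σ (y / x)) + (σ (y / x) - y / x) := by ring
    rw [e]
    exact Valuation.map_add_lt v hdiff (hσs _ hs)
  have hx1'' : v (σ x + ρ) < 1 := by rw [hvx']; exact hx1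
  have hxb'' : v W.a₄ < v (σ x + ρ) := by rw [hvx']; exact hxb
  exact inE0_sub_of_same_branch M h' h hx1'' hxb'' hvx' hfin

end Val

section ValA

variable {K : Type*} [Field K] [DecidableEq K] [CharZero K] {A : ValuationSubring K}
  {W : WeierstrassCurve K}

/-- **Size of the translation defect.** -/
theorem val_defect_le (H : NodeHyp A W) {ρ τ : K} (hρ : ρ ∈ A.nonunits)
    (h2 : ρ * W.a₁ + 2 * τ = 0) (heq : W.toAffine.Equation ρ τ) :
    A.valuation ρ ≤ A.valuation W.a₄ ∧ A.valuation τ ≤ A.valuation W.a₄ := by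
  by_cases hρ0 : ρ = 0
  · have hτ0 : τ = 0 := by
      rw [hρ0, zero_mul, zero_add] at h2
      exact (mul_eq_zero.1 h2).resolve_left two_ne_zero
    rw [hρ0, hτ0, _root_.map_zero]
    exact ⟨zero_le, zero_le⟩
  · have hrel := two_torsion_relation H.a₃ H.a₆ h2 heq
    have hquad : ρ * (4 * ρ + W.b₂) = -(4 * W.a₄) := by
      have := (mul_eq_zero.1 hrel).resolve_left hρ0
      linear_combination this
    have h4A : (4 : K) ∈ A := ofNat_mem A 4
    have h2A : (2 : K) ∈ A := ofNat_mem A 2
    have hv4 : A.valuation (4 : K) ≤ 1 := (ValuationSubring.valuation_le_one_iff A _).2 h4A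
    have hv2 : A.valuation (2 : K) ≤ 1 := (ValuationSubring.valuation_le_one_iff A _).2 h2A
    have hunit : A.valuation (4 * ρ + W.b₂) = 1 := by
      rw [Valuation.map_add_eq_of_lt_right, H.val_b₂]
      rw [H.val_b₂]
      exact (ValuationSubring.mem_nonunits_iff A).1 (nu_mul_right A h4A hρ)
    have hvρ : A.valuation ρ = A.valuation 4 * A.valuation W.a₄ := by
      have := congrArg A.valuation hquad
      rwa [map_mul, hunit, mul_one, Valuation.map_neg, map_mul] at this
    have h1 : A.valuation ρ ≤ A.valuation W.a₄ := by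
      rw [hvρ]
      exact mul_le_of_le_one_left' hv4
    refine ⟨h1, ?_⟩
    -- `v 2 * v τ = v a₁ * v ρ ≤ v ρ = v 2 * (v 2 * v a₄)`
    have hv2pos : 0 < A.valuation (2 : K) := by
      rw [Valuation.pos_iff]
      exact two_ne_zero
    have e2 : (2 : K) * τ = -(ρ * W.a₁) := by linear_combination h2
    have h3 : A.valuation 2 * A.valuation τ ≤ A.valuation 2 * (A.valuation 2 * A.valuation W.a₄) := by
      have e4 : (4 : K) = 2 * 2 := by norm_num
      calc A.valuation 2 * A.valuation τ = A.valuation ρ * A.valuation W.a₁ := by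
            rw [← map_mul, e2, Valuation.map_neg, map_mul]
        _ ≤ A.valuation ρ := mul_le_of_le_one_right'
            ((ValuationSubring.valuation_le_one_iff A _).2 H.a₁)
        _ = A.valuation 2 * (A.valuation 2 * A.valuation W.a₄) := by
            rw [hvρ, e4, map_mul, mul_assoc]
    have h4 : A.valuation τ ≤ A.valuation 2 * A.valuation W.a₄ :=
      le_of_mul_le_mul_left h3 hv2pos
    exact h4.trans (mul_le_of_le_one_left' hv2)

end ValA

/-! ### The inertia group and the node model -/

section Galois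

variable {R : Type*} {K : Type*} [CommRing R] [Field K] [DecidableEq K]
  [Algebra R ℚ] [Algebra R K] [Algebra ℚ K] [IsScalarTower R ℚ K] [Algebra.IsAlgebraic ℚ K]

omit [DecidableEq K] [Algebra.IsAlgebraic ℚ K] in
theorem algEquiv_algebraMap (σ : K ≃ₐ[ℚ] K) (c : R) : σ (algebraMap R K c) = algebraMap R K c := by
  rw [IsScalarTower.algebraMap_apply R ℚ K, σ.commutes]

variable (A : ValuationSubring K) {q : ℕ} (hq : q.Prime) (hA : A.LiesOverPrime q)
  (W' : Affine R) {r t : K} (hr : r ∈ A) (ht : t ∈ A)
  (H : NodeHyp A (transl r t • W'.baseChange K))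
  {α : K} (hα : α ^ 2 + (transl r t • W'.baseChange K).a₁ * α
    - (transl r t • W'.baseChange K).a₂ = 0)

omit [DecidableEq K] [Algebra.IsAlgebraic ℚ K] in
include H in
/-- the defect `(σ r - r, σ t - t)` satisfies `ρ a₁ + 2 τ = 0` -/
theorem defect_linear (σ : K ≃ₐ[ℚ] K) :
    (σ r - r) * (transl r t • W'.baseChange K).a₁ + 2 * (σ t - t) = 0 := by
  have h3 := H.a₃
  rw [transl_a₃] at h3
  have h3' := congrArg σ h3
  have e1 : σ (W'.baseChange K).a₁ = (W'.baseChange K).a₁ := algEquiv_algebraMap σ W'.a₁
  have e3 : σ (W'.baseChange K).a₃ = (W'.baseChange K).a₃ := algEquiv_algebraMap σ W'.a₃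
  rw [map_add, map_add, map_mul, map_mul, e1, e3, map_ofNat, _root_.map_zero] at h3'
  rw [transl_a₁]
  linear_combination h3' - h3

omit [Algebra.IsAlgebraic ℚ K] in
include H in
/-- the defect `(σ r - r, σ t - t)` is a point of the node model -/
theorem defect_equation (σ : K ≃ₐ[ℚ] K) :
    (transl r t • W'.baseChange K).toAffine.Equation (σ r - r) (σ t - t) := by
  rw [vc_equation_iff, vcX_transl, vcY_transl, sub_add_cancel, sub_add_cancel]
  have h0 : (transl r t • W'.baseChange K).toAffine.Equation 0 0 :=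
    Affine.equation_zero.2 H.a₆
  rw [vc_equation_iff, vcX_transl, vcY_transl, zero_add, zero_add] at h0
  exact (W'.baseChange_equation σ.toAlgHom.injective r t).mpr h0

include hq hA hr H hα in
/-- **Core step**: the twisted action of inertia on the node model moves every affine point
within its component. -/
theorem some_sub_some_inE0 {σ : K ≃ₐ[ℚ] K} (hσ : σ ∈ A.inertiaSubgroupIn ℚ) {x y : K}
    (h : (transl r t • W'.baseChange K).toAffine.Nonsingular x y)
    (h' : (transl r t • W'.baseChange K).toAffine.Nonsingular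
      (σ x + (σ r - r)) (σ y + (σ t - t))) :
    InE0 A.valuation (transl r t • W'.baseChange K)
      (Point.some _ _ h' - Point.some x y h) := by
  have : CharZero K := algebraRat.charZero K
  have M := H.gModel hα
  have hρ : σ r - r ∈ A.nonunits := apply_sub_mem_nonunits_of_mem_inertiaSubgroupIn hσ hr
  obtain ⟨hvρ, hvτ⟩ := val_defect_le H hρ (defect_linear A W' H σ) (defect_equation A W' H σ)
  exact some_sub_some_inE0_core M (σ : K →+* K)
    (valuation_apply_eq_of_mem_inertia A hq hA hσ)
    (fun z hz => (ValuationSubring.mem_nonunits_iff A).1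
      (apply_sub_mem_nonunits_of_mem_inertiaSubgroupIn hσ
        ((ValuationSubring.valuation_le_one_iff A _).1 hz))) hvρ hvτ h h'

omit [Algebra R ℚ] [Algebra ℚ K] [IsScalarTower R ℚ K] [Algebra.IsAlgebraic ℚ K] [DecidableEq K] in
theorem pt_congr {F : Type*} [CommRing F] {V : Affine F} {x x' y y' : F} (hx : x = x')
    (hy : y = y') (h : V.Nonsingular x y) (h' : V.Nonsingular x' y') :
    Point.some x y h = Point.some x' y' h' := by
  subst hx hy
  rfl

omit [Algebra.IsAlgebraic ℚ K] in
/-- nonsingularity of the twisted image -/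
theorem nonsingular_twist (σ : K ≃ₐ[ℚ] K) {x y : K}
    (h : (transl r t • W'.baseChange K).toAffine.Nonsingular x y) :
    (transl r t • W'.baseChange K).toAffine.Nonsingular
      (σ x + (σ r - r)) (σ y + (σ t - t)) := by
  rw [vc_nonsingular_iff, vcX_transl, vcY_transl]
  have h1 := (vc_nonsingular_iff (W'.baseChange K) (transl r t) x y).1 h
  rw [vcX_transl, vcY_transl] at h1
  have h2 := (W'.baseChange_nonsingular σ.toAlgHom.injective (x + r) (y + t)).mpr h1
  have ex : σ x + (σ r - r) + r = σ.toAlgHom (x + r) := by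
    change _ = σ (x + r)
    rw [map_add]; ring
  have ey : σ y + (σ t - t) + t = σ.toAlgHom (y + t) := by
    change _ = σ (y + t)
    rw [map_add]; ring
  rw [ex, ey]
  exact h2

include hq hA hr H hα in
/-- **`(σ - 1)` maps all of `W(K)` into `E₀` of the node model.** -/
theorem symm_smul_sub_inE0 {σ : K ≃ₐ[ℚ] K} (hσ : σ ∈ A.inertiaSubgroupIn ℚ)
    (P : (W'⁄K).Point) :
    InE0 A.valuation (transl r t • W'.baseChange K)
      ((vcPointEquiv (W'.baseChange K) (transl r t)).symm (σ • P - P)) := by
  obtain ⟨P', rfl⟩ := (vcPointEquiv (W'.baseChange K) (transl r t)).surjective P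
  rw [map_sub, AddEquiv.symm_apply_apply]
  rcases P' with _ | ⟨x, y, h⟩
  · have e0 : (Point.zero : (transl r t • W'.baseChange K).toAffine.Point) = 0 := rfl
    rw [e0, _root_.map_zero, smul_zero, _root_.map_zero, sub_zero]
    exact inE0_zero
  · have h' := nonsingular_twist W' σ h
    have key : (vcPointEquiv (W'.baseChange K) (transl r t)).symm
        (σ • (vcPointEquiv (W'.baseChange K) (transl r t)) (Point.some x y h)) =
        Point.some _ _ h' := by
      rw [AddEquiv.symm_apply_eq, vcPointEquiv_some, vcPointEquiv_some]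
      have hn := (vc_nonsingular_iff (W'.baseChange K) (transl r t) x y).1 h
      have hsmul : σ • (Point.some _ _ hn : (W'⁄K).Point) =
          Point.some (σ (vcX (transl r t) x)) (σ (vcY (transl r t) x y))
            ((W'.baseChange_nonsingular σ.toAlgHom.injective _ _).mpr hn) := rfl
      rw [hsmul]
      apply pt_congr
      · rw [vcX_transl, vcX_transl, map_add]; ring
      · rw [vcY_transl, vcY_transl, map_add]; ring
    rw [key]
    exact some_sub_some_inE0 A hq hA W' hr H hα hσ h h'

end Galois

end Fermat.Agent.GE.Unip
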