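/-
GATE-L / S58, node EC-UNIP (U4) + EC-RED-INERTIA:

* `unipotent_of_multiplicative`: `W'` over `R → ℚ → K` (`K` algebraically closed, algebraic over
  `ℚ`), `A` a valuation subring of `K` over a prime, coefficients in `A`, `Δ ∈ 𝔪`, `Δ ≠ 0`,
  `c₄ ∉ 𝔪`; for `σ` in the inertia group of `A`, `m` a unit of `A` and `m • P = 0`:
  `σ • (σ • P - P) = σ • P - P`.
* `smul_eq_of_good`: if `Δ ∉ 𝔪` then `σ • P = P`.
* `ec_unip`, `ec_good`: the prelude-facing forms for `W : WeierstrassCurve ℤ` semistable.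
-/
import Fermat.Agent.GE.Unip.CompInv
import Fermat.Prelude.Def_FLTPrelim_Modularity

set_option autoImplicit false
set_option linter.unusedSectionVars false

namespace Fermat.Agent.GE.Unip

open WeierstrassCurve WeierstrassCurve.Affine WeierstrassCurve.Affine.Point
open Fermat.Agent.S05 Fermat.Agent.S05.SameRed Fermat.Agent.S13.NodeInertia
open Fermat.Agent.S13.NodeGen Fermat.Agent.S13.Branch

/-! ### `NonsingularRed` and translations; good reduction -/

section Red

variable {K : Type*} [Field K] (A : ValuationSubring K) (W : WeierstrassCurve K)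

theorem nonsingularRed_transl_iff (r t x y : K) :
    NonsingularRed A (transl r t • W) x y ↔ NonsingularRed A W (x + r) (y + t) := by
  unfold NonsingularRed
  have e1 : (transl r t • W).a₁ * y - (3 * x ^ 2 + 2 * (transl r t • W).a₂ * x +
      (transl r t • W).a₄) =
      W.a₁ * (y + t) - (3 * (x + r) ^ 2 + 2 * W.a₂ * (x + r) + W.a₄) := by
    rw [transl_a₁, transl_a₂, transl_a₄]
    ring
  have e2 : 2 * y + (transl r t • W).a₁ * x + (transl r t • W).a₃ =
      2 * (y + t) + W.a₁ * (x + r) + W.a₃ := by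
    rw [transl_a₁, transl_a₃]
    ring
  rw [e1, e2]

variable {A W}

theorem Δ_mem_nu (hb₂ : W.b₂ ∈ A) (hb₄ : W.b₄ ∈ A.nonunits) (hb₆ : W.b₆ ∈ A.nonunits)
    (hb₈ : W.b₈ ∈ A.nonunits) : W.Δ ∈ A.nonunits := by
  have hb₄A := nu_mem A hb₄
  have hb₆A := nu_mem A hb₆
  have e : W.Δ = W.b₈ * (-W.b₂ ^ 2) + W.b₄ * (-8 * W.b₄ ^ 2 + 9 * W.b₂ * W.b₆)
      + W.b₆ * (-27 * W.b₆) := by
    rw [WeierstrassCurve.Δ]
    ring
  rw [e]
  refine nu_add A (nu_add A (nu_mul_left A hb₈ (neg_mem (pow_mem hb₂ 2))) (nu_mul_left A hb₄ ?_))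
    (nu_mul_left A hb₆ (mul_mem (neg_mem (ofNat_mem A 27)) hb₆A))
  exact add_mem (mul_mem (neg_mem (ofNat_mem A 8)) (pow_mem hb₄A 2))
    (mul_mem (mul_mem (ofNat_mem A 9) hb₂) hb₆A)

/-- If `a₆ = 0` and `a₃, a₄ ∈ 𝔪` (the origin reduces to a singular point) then `Δ ∈ 𝔪`. -/
theorem Δ_mem_nu_of_singular_origin (hW : IntegralCoeffs A W) (h6 : W.a₆ = 0)
    (h3 : W.a₃ ∈ A.nonunits) (h4 : W.a₄ ∈ A.nonunits) : W.Δ ∈ A.nonunits := by
  have h3A := nu_mem A h3
  have h4A := nu_mem A h4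
  refine Δ_mem_nu (b₂_mem_of_integral hW) ?_ ?_ ?_
  · rw [WeierstrassCurve.b₄]
    exact nu_add A (nu_mul_right A (ofNat_mem A 2) h4) (nu_mul_right A hW.a₁ h3)
  · rw [WeierstrassCurve.b₆, h6, mul_zero, add_zero, sq]
    exact nu_mul_left A h3 h3A
  · rw [WeierstrassCurve.b₈, h6]
    have e : W.a₁ ^ 2 * 0 + 4 * W.a₂ * 0 - W.a₁ * W.a₃ * W.a₄ + W.a₂ * W.a₃ ^ 2 - W.a₄ ^ 2 =
        W.a₃ * (W.a₂ * W.a₃ - W.a₁ * W.a₄) - W.a₄ * W.a₄ := by ring
    rw [e]
    exact nu_sub A (nu_mul_left A h3 (sub_mem (mul_mem hW.a₂ h3A) (mul_mem hW.a₁ h4A)))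
      (nu_mul_left A h4 h4A)

/-- **Good reduction: every integral point has nonsingular reduction.** -/
theorem nonsingularRed_of_Δ_unit (hW : IntegralCoeffs A W) (hΔ : W.Δ ∉ A.nonunits) {x y : K}
    (h : W.toAffine.Equation x y) (hx : x ∈ A) (hy : y ∈ A) : NonsingularRed A W x y := by
  by_contra hns
  apply hΔ
  rw [← transl_Δ W x y]
  unfold NonsingularRed at hns
  push Not at hns
  obtain ⟨h1, h2⟩ := hns
  refine Δ_mem_nu_of_singular_origin (transl_integralCoeffs W hW hx hy) ?_ ?_ ?_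
  · rw [transl_a₆]
    rw [Affine.equation_iff] at h
    linear_combination -h
  · rw [transl_a₃]
    have e : W.a₃ + x * W.a₁ + 2 * y = 2 * y + W.a₁ * x + W.a₃ := by ring
    rw [e]
    exact h2
  · rw [transl_a₄]
    have e : W.a₄ + 2 * x * W.a₂ - y * W.a₁ + 3 * x ^ 2 =
        -(W.a₁ * y - (3 * x ^ 2 + 2 * W.a₂ * x + W.a₄)) := by ring
    rw [e]
    exact nu_neg A h1

end Red

/-! ### Inertia -/

section Galois

variable {R : Type*} {K : Type*} [CommRing R] [Field K] [DecidableEq K]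
  [Algebra R ℚ] [Algebra R K] [Algebra ℚ K] [IsScalarTower R ℚ K] [Algebra.IsAlgebraic ℚ K]

variable (A : ValuationSubring K) {q : ℕ} (hq : q.Prime) (hA : A.LiesOverPrime q)
  (W' : Affine R) (hW : IntegralCoeffs A (W'.baseChange K))

omit [Algebra.IsAlgebraic ℚ K] in
include hW in
/-- **Good reduction: inertia fixes the torsion prime to the residue characteristic.** -/
theorem smul_eq_of_good (hΔ : (W'.baseChange K).Δ ∉ A.nonunits) {m : ℕ}
    (hmA : (m : K) ∉ A.nonunits) {σ : K ≃ₐ[ℚ] K} (hσ : σ ∈ A.inertiaSubgroupIn ℚ)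
    (P : (W'⁄K).Point) (hP : m • P = 0) : σ • P = P := by
  have hB : KR.IntegralB A (W'⁄K) :=
    KR.integralB_of_a A (W'⁄K) hW.a₁ hW.a₂ hW.a₃ hW.a₄ hW.a₆
  rcases P with _ | ⟨x, y, h⟩
  · rfl
  · by_cases hx : x ∈ A
    · have hy : y ∈ A := KR.y_mem_of_x_mem (W := (W'⁄K)) hW.a₁ hW.a₂ hW.a₃ hW.a₄ hW.a₆ h.1 hx
      have h1 := inKerRed_smul_sub_of_mem_inertia W' hW hσ h hx hy
        (nonsingularRed_of_Δ_unit hW hΔ h.1 hx hy)
      have h2 : m • (σ • (Point.some x y h : (W'⁄K).Point) - Point.some x y h) = 0 := by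
        rw [smul_sub, smul_comm m σ, hP, smul_zero, sub_zero]
      exact sub_eq_zero.1
        (KR.eq_zero_of_nsmul_eq_zero_of_x_notMem hB hmA _ h2 ((inKerRed_iff _).1 h1))
    · have := KR.eq_zero_of_nsmul_eq_zero_of_x_notMem hB hmA _ hP
        (Or.inr ⟨x, y, h, rfl, hx⟩)
      rw [this, smul_zero]

variable {r t : K} (hr : r ∈ A) (ht : t ∈ A) (H : NodeHyp A (transl r t • W'.baseChange K))

omit [Algebra.IsAlgebraic ℚ K] in
include hW hr ht H in
/-- Inertia fixes the prime-to-residue-characteristic torsion of the preimage of `E₀`. -/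
theorem smul_eq_of_symm_inE0 {m : ℕ} (hmA : (m : K) ∉ A.nonunits) {σ : K ≃ₐ[ℚ] K}
    (hσ : σ ∈ A.inertiaSubgroupIn ℚ) (Q : (W'⁄K).Point) (hQ : m • Q = 0)
    (hQ0 : InE0 A.valuation (transl r t • W'.baseChange K)
      ((vcPointEquiv (W'.baseChange K) (transl r t)).symm Q)) : σ • Q = Q := by
  have hB : KR.IntegralB A (W'⁄K) :=
    KR.integralB_of_a A (W'⁄K) hW.a₁ hW.a₂ hW.a₃ hW.a₄ hW.a₆
  obtain ⟨Q', rfl⟩ := (vcPointEquiv (W'.baseChange K) (transl r t)).surjective Q
  rw [AddEquiv.symm_apply_apply] at hQ0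
  have hQ' : m • Q' = 0 := by
    apply (vcPointEquiv (W'.baseChange K) (transl r t)).injective
    rw [map_nsmul, hQ, _root_.map_zero]
  rcases hQ0 with rfl | ⟨x, y, h, rfl, hx1⟩
  · rw [_root_.map_zero, smul_zero]
  · by_cases hx : x ∈ A
    · have hxu : x ∉ A.nonunits := fun hmem =>
        absurd ((ValuationSubring.mem_nonunits_iff A).1 hmem) (not_lt.2 hx1)
      have hy : y ∈ A := KR.y_mem_of_x_mem (W := (transl r t • W'.baseChange K).toAffine)
        H.a₁ H.a₂ (by rw [H.a₃]; exact A.zero_mem) H.a₄_mem (by rw [H.a₆]; exact A.zero_mem)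
        h.1 hx
      have hns := (nonsingularRed_transl_iff A (W'.baseChange K) r t x y).1
        (H.nonsingularRed_of_x_unit h.1 hx hxu)
      rw [vcPointEquiv_some] at hQ ⊢
      have hn := (vc_nonsingular_iff (W'.baseChange K) (transl r t) x y).1 h
      have hn' : (W'⁄K).Nonsingular (x + r) (y + t) := by
        rw [← vcX_transl r t x, ← vcY_transl r t x y]; exact hn
      have e : (Point.some (vcX (transl r t) x) (vcY (transl r t) x y) hn : (W'⁄K).Point) =
          Point.some (x + r) (y + t) hn' :=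
        pt_congr (vcX_transl r t x) (vcY_transl r t x y) _ _
      rw [e] at hQ ⊢
      have h1 := inKerRed_smul_sub_of_mem_inertia W' hW hσ hn' (add_mem hx hr) (add_mem hy ht) hns
      have h2 : m • (σ • (Point.some (x + r) (y + t) hn' : (W'⁄K).Point)
          - Point.some (x + r) (y + t) hn') = 0 := by
        rw [smul_sub, smul_comm m σ, hQ, smul_zero, sub_zero]
      exact sub_eq_zero.1
        (KR.eq_zero_of_nsmul_eq_zero_of_x_notMem hB hmA _ h2 ((inKerRed_iff _).1 h1))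
    · have := KR.eq_zero_of_nsmul_eq_zero_of_x_notMem H.integralB hmA _ hQ'
        (Or.inr ⟨x, y, h, rfl, hx⟩)
      rw [this, _root_.map_zero, smul_zero]

variable [IsAlgClosed K]

include hq hA hW in
/-- **Multiplicative reduction: inertia acts unipotently on the torsion prime to the residue
characteristic** (all residue characteristics, all `m`). -/
theorem unipotent_of_multiplicative (hΔ : (W'.baseChange K).Δ ∈ A.nonunits)
    (hΔ0 : (W'.baseChange K).Δ ≠ 0) (hc₄ : (W'.baseChange K).c₄ ∉ A.nonunits) {m : ℕ}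
    (hmA : (m : K) ∉ A.nonunits) {σ : K ≃ₐ[ℚ] K} (hσ : σ ∈ A.inertiaSubgroupIn ℚ)
    (P : (W'⁄K).Point) (hP : m • P = 0) : σ • (σ • P - P) = σ • P - P := by
  have : CharZero K := algebraRat.charZero K
  obtain ⟨r, t, hr, ht, H⟩ := exists_nodeHyp hW hΔ hΔ0 hc₄
  obtain ⟨α, hα⟩ := exists_root (transl r t • W'.baseChange K).a₁ (transl r t • W'.baseChange K).a₂
  have h2 : m • (σ • P - P) = 0 := by
    rw [smul_sub, smul_comm m σ P, hP, smul_zero, sub_zero]
  exact smul_eq_of_symm_inE0 A W' hW hr ht H hmA hσ _ h2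
    (symm_smul_sub_inE0 A hq hA W' hr H hα hσ P)

end Galois

/-! ### The prelude-facing statements for a semistable integral model -/

section Final

variable (W : WeierstrassCurve ℤ) (A : ValuationSubring (AlgebraicClosure ℚ))

theorem baseChange_coeff_eq :
    ((W.map (Int.castRingHom ℚ)).baseChange (AlgebraicClosure ℚ)) =
      W.map (Int.castRingHom (AlgebraicClosure ℚ)) := by
  rw [WeierstrassCurve.baseChange, WeierstrassCurve.map_map]
  congr 1

theorem baseChange_integralCoeffs :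
    IntegralCoeffs A ((W.map (Int.castRingHom ℚ)).baseChange (AlgebraicClosure ℚ)) := by
  rw [baseChange_coeff_eq]
  exact ⟨intCast_mem_valuationSubring A _, intCast_mem_valuationSubring A _,
    intCast_mem_valuationSubring A _, intCast_mem_valuationSubring A _,
    intCast_mem_valuationSubring A _⟩

theorem baseChange_Δ_eq :
    ((W.map (Int.castRingHom ℚ)).baseChange (AlgebraicClosure ℚ)).Δ =
      ((W.Δ : ℤ) : AlgebraicClosure ℚ) := by
  rw [baseChange_coeff_eq, WeierstrassCurve.map_Δ]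
  rfl

theorem baseChange_c₄_eq :
    ((W.map (Int.castRingHom ℚ)).baseChange (AlgebraicClosure ℚ)).c₄ =
      ((W.c₄ : ℤ) : AlgebraicClosure ℚ) := by
  rw [baseChange_coeff_eq, WeierstrassCurve.map_c₄]
  rfl

variable {W A} {q : ℕ}

/-- **EC-RED-INERTIA (G').**  At a prime `q` of good reduction of the integral model `W`, the
inertia groups over `q` act trivially on the torsion of order prime to `q`. -/
theorem ec_good (hq : q.Prime) (hA : A.LiesOverPrime q) (hgood : W.IsGoodPrimeFor q)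
    {σ : AlgebraicClosure ℚ ≃ₐ[ℚ] AlgebraicClosure ℚ} (hσ : σ ∈ A.inertiaSubgroupIn ℚ)
    {m : ℕ} (hm : ¬ q ∣ m)
    (P : ((W.map (Int.castRingHom ℚ))⁄(AlgebraicClosure ℚ)).Point) (hP : m • P = 0) :
    σ • P = P := by
  refine smul_eq_of_good A (W.map (Int.castRingHom ℚ)) (baseChange_integralCoeffs W A) ?_ ?_ hσ
    P hP
  · rw [baseChange_Δ_eq, intCast_mem_nonunits_iff hq hA]
    exact hgood
  · rw [natCast_mem_nonunits_iff hq hA]
    exact hm

/-- **EC-UNIP (M').**  For a semistable integral model `W` with `Δ ≠ 0`, every inertia group over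
a prime `q` acts unipotently on the torsion of order prime to `q`:
`(σ - 1)² = 0` on `W(ℚ̄)[m]`, `q ∤ m`. -/
theorem ec_unip (hss : W.IsSemistableModel) (hΔ : W.Δ ≠ 0) (hq : q.Prime)
    (hA : A.LiesOverPrime q)
    {σ : AlgebraicClosure ℚ ≃ₐ[ℚ] AlgebraicClosure ℚ} (hσ : σ ∈ A.inertiaSubgroupIn ℚ)
    {m : ℕ} (hm : ¬ q ∣ m)
    (P : ((W.map (Int.castRingHom ℚ))⁄(AlgebraicClosure ℚ)).Point) (hP : m • P = 0) :
    σ • (σ • P - P) = σ • P - P := by
  by_cases hgood : W.IsGoodPrimeFor q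
  · rw [ec_good hq hA hgood hσ hm P hP, sub_self, smul_zero]
  · have hdvd : (q : ℤ) ∣ W.Δ := not_not.1 hgood
    refine unipotent_of_multiplicative A hq hA (W.map (Int.castRingHom ℚ))
      (baseChange_integralCoeffs W A) ?_ ?_ ?_ ?_ hσ P hP
    · rw [baseChange_Δ_eq, intCast_mem_nonunits_iff hq hA]
      exact hdvd
    · rw [baseChange_Δ_eq]
      exact_mod_cast hΔ
    · rw [baseChange_c₄_eq, intCast_mem_nonunits_iff hq hA]
      exact hss q hq hdvd
    · rw [natCast_mem_nonunits_iff hq hA]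
      exact hm

end Final

end Fermat.Agent.GE.Unip
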